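import Mathlib.Analysis.SpecificLimits.Basic
import Mathlib.NumberTheory.ArithmeticFunction.Misc
import Mathlib.Tactic

/-!
# The abundancy of a product of prime powers

The factor of a prime power `p ^ e` is `∑ (1 / p) ^ l`, `l ≤ e`; it tends to one as `p` grows and to
`p / (p - 1)` as `e` grows.
-/

set_option autoImplicit false

noncomputable section

open Finset Filter ArithmeticFunction
open scoped Topology ArithmeticFunction.sigma

namespace FA.OddPerfect

/-- The factor of a prime power. -/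
def factor (p e : ℕ) : ℝ := ∑ l ∈ range (e + 1), ((p : ℝ)⁻¹) ^ l

theorem sigma_pow_eq {p : ℕ} (hp : p.Prime) (e : ℕ) :
    (σ 1 (p ^ e) : ℝ) = (p : ℝ) ^ e * factor p e := by
  rw [sigma_one_apply_prime_pow hp, factor, mul_sum, ← sum_range_reflect]
  push_cast
  refine sum_congr rfl fun l hl => ?_
  rw [mem_range] at hl
  rw [inv_pow, ← div_eq_mul_inv, pow_sub₀ _ (Nat.cast_ne_zero.2 hp.ne_zero)
    (by omega : l ≤ e), div_eq_mul_inv]

theorem one_le_factor (p e : ℕ) : 1 ≤ factor p e := by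
  rw [factor, sum_range_succ', pow_zero]
  exact le_add_of_nonneg_left (sum_nonneg fun l _ => by positivity)

theorem factor_lt {p : ℕ} (hp : 2 ≤ p) (e : ℕ) : factor p e < (p : ℝ) / ((p : ℝ) - 1) := by
  have h2 : (2 : ℝ) ≤ p := by exact_mod_cast hp
  have hr0 : 0 ≤ (p : ℝ)⁻¹ := by positivity
  have hr : (p : ℝ)⁻¹ < 1 := inv_lt_one_of_one_lt₀ (by linarith)
  have hlim := (hasSum_geometric_of_lt_one hr0 hr)
  refine lt_of_lt_of_le (lt_add_of_pos_right _ (show 0 < ((p : ℝ)⁻¹) ^ (e + 1) by positivity)) ?_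
  rw [factor, ← sum_range_succ]
  refine (sum_le_hasSum _ (fun l _ => by positivity) hlim).trans (le_of_eq ?_)
  have h0 : (p : ℝ) ≠ 0 := by linarith
  field_simp

theorem tendsto_factor_exp {p : ℕ} (hp : 2 ≤ p) {e : ℕ → ℕ} (he : Tendsto e atTop atTop) :
    Tendsto (fun j => factor p (e j)) atTop (𝓝 ((p : ℝ) / ((p : ℝ) - 1))) := by
  have h2 : (2 : ℝ) ≤ p := by exact_mod_cast hp
  have h := (hasSum_geometric_of_lt_one (show 0 ≤ (p : ℝ)⁻¹ by positivity)
    (inv_lt_one_of_one_lt₀ (by linarith))).tendsto_sum_nat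
  rw [show (1 - (p : ℝ)⁻¹)⁻¹ = (p : ℝ) / ((p : ℝ) - 1) by
    have h0 : (p : ℝ) ≠ 0 := by linarith
    field_simp] at h
  exact h.comp ((tendsto_add_atTop_nat 1).comp he)

theorem tendsto_factor_prime {p e : ℕ → ℕ} (hp2 : ∀ j, 2 ≤ p j) (hp : Tendsto p atTop atTop) :
    Tendsto (fun j => factor (p j) (e j)) atTop (𝓝 1) := by
  have h1 : Tendsto (fun j => ((p j : ℝ) - 1)) atTop atTop :=
    tendsto_atTop_add_const_right _ _ (tendsto_natCast_atTop_atTop.comp hp)
  have h2 : Tendsto (fun j => 1 + ((p j : ℝ) - 1)⁻¹) atTop (𝓝 1) := by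
    simpa using h1.inv_tendsto_atTop.const_add 1
  refine tendsto_of_tendsto_of_tendsto_of_le_of_le tendsto_const_nhds h2
    (fun j => one_le_factor _ _) fun j => ?_
  have h3 : (2 : ℝ) ≤ p j := by exact_mod_cast hp2 j
  refine (factor_lt (hp2 j) (e j)).le.trans (le_of_eq ?_)
  have h4 : (p j : ℝ) - 1 ≠ 0 := by linarith
  field_simp
  ring

variable {ι : Type*}

/-- The sum of divisors of a product of prime powers. -/
theorem sigma_prod_eq (s : Finset ι) {p : ι → ℕ} (hp : ∀ i, (p i).Prime)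
    (hinj : Function.Injective p) (e : ι → ℕ) :
    (σ 1 (∏ i ∈ s, p i ^ e i) : ℝ) =
      ((∏ i ∈ s, p i ^ e i : ℕ) : ℝ) * ∏ i ∈ s, factor (p i) (e i) := by
  rw [IsMultiplicative.map_prod _ isMultiplicative_sigma s fun i _ j _ hij =>
    ((Nat.coprime_primes (hp i) (hp j)).2 fun h => hij (hinj h)).pow _ _]
  push_cast
  rw [← prod_mul_distrib]
  exact prod_congr rfl fun i _ => sigma_pow_eq (hp i) (e i)

/-- A proper divisor has smaller abundancy. -/
theorem sigma_mul_lt {d n : ℕ} (hn : n ≠ 0) (hd : d ∣ n) (hne : d ≠ n) :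
    σ 1 d * n < σ 1 n * d := by
  obtain ⟨c, rfl⟩ := hd
  have hd0 : d ≠ 0 := left_ne_zero_of_mul hn
  have hc : c ≠ 1 := fun h => hne (by rw [h, mul_one])
  have hc0 : c ≠ 0 := right_ne_zero_of_mul hn
  have h : σ 1 d * c < σ 1 (d * c) := by
    rw [sigma_one_apply, sigma_one_apply, sum_mul,
      ← sum_image (g := (· * c)) (f := fun x => x) (fun x _ y _ h => Nat.eq_of_mul_eq_mul_right
        (Nat.pos_of_ne_zero hc0) h)]
    refine sum_lt_sum_of_subset (i := 1) ?_ (Nat.one_mem_divisors.2 hn) ?_ one_pos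
      fun _ _ _ => Nat.zero_le _
    · intro x hx
      obtain ⟨y, hy, rfl⟩ := mem_image.1 hx
      exact Nat.mem_divisors.2 ⟨mul_dvd_mul_right (Nat.dvd_of_mem_divisors hy) c, hn⟩
    · intro h1
      obtain ⟨y, -, hy⟩ := mem_image.1 h1
      exact hc (Nat.eq_one_of_mul_eq_one_left hy)
  calc σ 1 d * (d * c) = σ 1 d * c * d := by ring
    _ < σ 1 (d * c) * d := Nat.mul_lt_mul_of_pos_right h (Nat.pos_of_ne_zero hd0)

end FA.OddPerfect

end
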