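import Fermat.Agent.OddPerfect.Abundancy

/-!
# Dickson's finiteness theorem

Shapiro's argument: along a sequence of odd primitive non-deficient numbers each prime is constant
or tends to infinity, and likewise each exponent; the limit of the abundancy is then neither above
nor equal to two.
-/

set_option autoImplicit false

noncomputable section

open Finset Filter ArithmeticFunction
open scoped Topology ArithmeticFunction.sigma

namespace FA.OddPerfect

/-- A non-deficient number all of whose proper divisors are deficient. -/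
def Primitive (n : ℕ) : Prop := 2 * n ≤ σ 1 n ∧ ∀ d, d ∣ n → d ≠ n → σ 1 d < 2 * d

/-- A subsequence constant or tending to infinity. -/
theorem exists_subseq (f : ℕ → ℕ) : ∃ φ : ℕ → ℕ, StrictMono φ ∧
    ((∃ c, ∀ j, f (φ j) = c) ∨ Tendsto (f ∘ φ) atTop atTop) := by
  by_cases h : Tendsto f atTop atTop
  · exact ⟨id, strictMono_id, Or.inr h⟩
  obtain ⟨b, hb⟩ : ∃ b, ∀ N, ∃ j, N ≤ j ∧ f j < b := by
    simp only [tendsto_atTop, eventually_atTop] at h
    push Not at h
    exact h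
  obtain ⟨φ, hφ, hφ'⟩ := extraction_of_frequently_atTop (frequently_atTop.2 hb)
  obtain ⟨⟨c, hc⟩, hinf⟩ := Finite.exists_infinite_fiber fun j => (⟨f (φ j), hφ' j⟩ : Fin b)
  rw [Set.infinite_coe_iff] at hinf
  obtain ⟨ψ, hψ, hψ'⟩ := extraction_of_frequently_atTop
    (Nat.frequently_atTop_iff_infinite.2 hinf)
  exact ⟨φ ∘ ψ, hφ.comp hψ, Or.inl ⟨c, fun j => congrArg Fin.val (hψ' j)⟩⟩

/-- Simultaneously. -/
theorem exists_subseq_finset {ι : Type*} (s : Finset ι) (f : ι → ℕ → ℕ) :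
    ∃ φ : ℕ → ℕ, StrictMono φ ∧
      ∀ i ∈ s, (∃ c, ∀ j, f i (φ j) = c) ∨ Tendsto (f i ∘ φ) atTop atTop := by
  classical
  induction s using Finset.induction_on with
  | empty => exact ⟨id, strictMono_id, by simp⟩
  | insert a t _ ih =>
    obtain ⟨φ, hφ, h⟩ := ih
    obtain ⟨ψ, hψ, h'⟩ := exists_subseq (f a ∘ φ)
    refine ⟨φ ∘ ψ, hφ.comp hψ, fun i hi => ?_⟩
    rcases mem_insert.1 hi with rfl | hi
    · exact h'
    · exact (h i hi).imp (fun ⟨c, hc⟩ => ⟨c, fun j => hc (ψ j)⟩)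
        fun ht => ht.comp hψ.tendsto_atTop

/-- No product of `p / (p - 1)` times the abundancy of a number prime to them is exactly two. -/
theorem limit_ne_two {T : Finset ℕ} (hT : T.Nonempty) (hp : ∀ p ∈ T, p.Prime ∧ p ≠ 2) {M : ℕ}
    (hM : M ≠ 0) (hcop : ∀ p ∈ T, ¬ p ∣ M) :
    ((σ 1 M : ℝ) / M) * ∏ p ∈ T, (p : ℝ) / ((p : ℝ) - 1) ≠ 2 := by
  intro h
  have hcast : ∀ p ∈ T, ((p - 1 : ℕ) : ℝ) = (p : ℝ) - 1 := fun p hpT => by
    rw [Nat.cast_sub (hp p hpT).1.one_le, Nat.cast_one]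
  have hne : ((∏ p ∈ T, (p - 1) : ℕ) : ℝ) ≠ 0 := Nat.cast_ne_zero.2
    (prod_ne_zero_iff.2 fun p hpT => by have := (hp p hpT).1.two_le; omega)
  rw [prod_div_distrib, ← prod_congr rfl hcast, ← Nat.cast_prod, ← Nat.cast_prod] at h
  have hMR : (M : ℝ) ≠ 0 := Nat.cast_ne_zero.2 hM
  field_simp at h
  have key : σ 1 M * ∏ p ∈ T, p = 2 * M * ∏ p ∈ T, (p - 1) := by
    have h' : ((σ 1 M * ∏ p ∈ T, p : ℕ) : ℝ) = ((2 * M * ∏ p ∈ T, (p - 1) : ℕ) : ℝ) := by
      push_cast at h ⊢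
      linarith
    exact_mod_cast h'
  set q := T.max' hT with hq
  have hqT := T.max'_mem hT
  have hdvd : q ∣ 2 * M * ∏ p ∈ T, (p - 1) :=
    key ▸ dvd_mul_of_dvd_right (dvd_prod_of_mem (fun p => p) hqT) _
  rcases (hp q hqT).1.dvd_mul.1 hdvd with h1 | h1
  · rcases (hp q hqT).1.dvd_mul.1 h1 with h2 | h2
    · exact (hp q hqT).2 ((Nat.prime_dvd_prime_iff_eq (hp q hqT).1 Nat.prime_two).1 h2)
    · exact hcop q hqT h2
  · obtain ⟨p, hpT, hdp⟩ := (Prime.dvd_finsetProd_iff (hp q hqT).1.prime _).1 h1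
    have h3 := Nat.le_of_dvd (by have := (hp p hpT).1.two_le; omega) hdp
    have h4 := T.le_max' p hpT
    have := (hp p hpT).1.two_le
    omega

/-- The abundancy of a product. -/
def abund {ι : Type*} [Fintype ι] (p e : ι → ℕ) : ℝ := ∏ i, factor (p i) (e i)

/-- No sequence of the classified kind exists. -/
theorem no_sequence {k : ℕ} (p e : Fin k → ℕ → ℕ) (hp : ∀ i j, (p i j).Prime ∧ p i j ≠ 2)
    (hinj : ∀ j, Function.Injective fun i => p i j) (he : ∀ i j, 1 ≤ e i j)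
    (hpc : ∀ i, (∃ c, ∀ j, p i j = c) ∨ Tendsto (p i) atTop atTop)
    (hec : ∀ i, (∃ c, ∀ j, e i j = c) ∨ Tendsto (e i) atTop atTop)
    (hprim : ∀ j, Primitive (∏ i, p i j ^ e i j))
    (hvar : ∀ c, ∃ j, (∏ i, p i j ^ e i j) ≠ c) : False := by
  classical
  have hdef : ∀ (j : ℕ) (e' : Fin k → ℕ), (∀ i, e' i ≤ e i j) → (∃ i, e' i < e i j) →
      abund (fun i => p i j) e' < 2 := by
    intro j e' hle hlt
    have hne : ∏ i, p i j ^ e' i ≠ ∏ i, p i j ^ e i j := by
      refine ne_of_lt (prod_lt_prod (fun i _ => pow_pos (hp i j).1.pos _)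
        (fun i _ => Nat.pow_le_pow_right (hp i j).1.pos (hle i)) ?_)
      obtain ⟨i, hi⟩ := hlt
      exact ⟨i, mem_univ i, Nat.pow_lt_pow_right (hp i j).1.one_lt hi⟩
    have h := (hprim j).2 _ (prod_dvd_prod_of_dvd _ _ fun i _ => pow_dvd_pow _ (hle i)) hne
    have h' : (σ 1 (∏ i, p i j ^ e' i) : ℝ) < 2 * ((∏ i, p i j ^ e' i : ℕ) : ℝ) := by
      exact_mod_cast h
    rw [sigma_prod_eq univ (fun i => (hp i j).1) (hinj j), mul_comm (2 : ℝ)] at h'
    exact lt_of_mul_lt_mul_left h' (Nat.cast_nonneg _)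
  have hnd : ∀ j, 2 ≤ abund (fun i => p i j) fun i => e i j := fun j => by
    have h : (2 : ℝ) * ((∏ i, p i j ^ e i j : ℕ) : ℝ) ≤ (σ 1 (∏ i, p i j ^ e i j) : ℝ) := by
      exact_mod_cast (hprim j).1
    rw [sigma_prod_eq univ (fun i => (hp i j).1) (hinj j), mul_comm] at h
    exact le_of_mul_le_mul_left h (Nat.cast_pos.2 (prod_pos fun i _ => pow_pos (hp i j).1.pos _))
  -- limits
  set Pc : Finset (Fin k) := univ.filter fun i => ∃ c, ∀ j, p i j = c with hPc
  set Cc : Finset (Fin k) := Pc.filter fun i => ∃ c, ∀ j, e i j = c with hCc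
  set lim : Fin k → ℝ := fun i =>
    if i ∈ Cc then factor (p i 0) (e i 0) else
      if i ∈ Pc then (p i 0 : ℝ) / ((p i 0 : ℝ) - 1) else 1 with hlim
  have hconstP : ∀ i ∈ Pc, ∀ j, p i j = p i 0 := fun i hi j => by
    obtain ⟨c, hc⟩ := (mem_filter.1 hi).2
    rw [hc, hc]
  have hconstE : ∀ i ∈ Cc, ∀ j, e i j = e i 0 := fun i hi j => by
    obtain ⟨c, hc⟩ := (mem_filter.1 hi).2
    rw [hc, hc]
  have hlimit : ∀ d : Fin k → ℕ, (∀ i ∈ Cc, d i = 0) →
      Tendsto (fun j => abund (fun i => p i j) fun i => e i j - d i) atTop (𝓝 (∏ i, lim i)) := by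
    intro d hd
    refine tendsto_finsetProd _ fun i _ => ?_
    simp only [hlim]
    split_ifs with h1 h2
    · simp only [hd i h1, tsub_zero, hconstP i (mem_filter.1 h1).1, hconstE i h1]
      exact tendsto_const_nhds
    · simp only [hconstP i h2]
      refine tendsto_factor_exp (hp i 0).1.two_le ?_
      have ht : Tendsto (e i) atTop atTop := (hec i).resolve_left fun hc =>
        h1 (mem_filter.2 ⟨h2, hc⟩)
      exact (tendsto_sub_atTop_nat (d i)).comp ht
    · exact tendsto_factor_prime (fun j => (hp i j).1.two_le)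
        ((hpc i).resolve_left fun hc => h2 (mem_filter.2 ⟨mem_univ i, hc⟩))
  obtain ⟨i₀, hi₀⟩ : ∃ i, i ∉ Cc := by
    by_contra! hall
    obtain ⟨j, hj⟩ := hvar (∏ i, p i 0 ^ e i 0)
    exact hj (prod_congr rfl fun i _ => by
      rw [hconstP i (mem_filter.1 (hall i)).1 j, hconstE i (hall i) j])
  have hle : ∏ i, lim i ≤ 2 := by
    refine le_of_tendsto (hlimit (fun i => if i = i₀ then 1 else 0) fun i hi =>
      if_neg fun h : i = i₀ => hi₀ (h ▸ hi)) (Eventually.of_forall fun j => ?_)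
    exact (hdef j _ (fun i => Nat.sub_le _ _) ⟨i₀, by have := he i₀ j; simp; omega⟩).le
  have hge : 2 ≤ ∏ i, lim i := by
    refine ge_of_tendsto (hlimit (fun _ => 0) fun i _ => rfl) (Eventually.of_forall fun j => ?_)
    simpa using hnd j
  have heq : ∏ i, lim i = 2 := le_antisymm hle hge
  set T : Finset (Fin k) := Pc \ Cc with hT
  have hsplit : ∏ i, lim i =
      (∏ i ∈ Cc, factor (p i 0) (e i 0)) * ∏ i ∈ T, (p i 0 : ℝ) / ((p i 0 : ℝ) - 1) := by
    have h1 : ∀ i ∈ univ, i ∉ Pc → lim i = 1 := fun i _ hi => by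
      simp only [hlim, if_neg hi, if_neg fun h : i ∈ Cc => hi (mem_filter.1 h).1]
    rw [← prod_subset (subset_univ Pc) h1, ← prod_sdiff (filter_subset _ Pc : Cc ⊆ Pc), mul_comm]
    refine congrArg₂ (· * ·) (prod_congr rfl fun i hi => ?_) (prod_congr rfl fun i hi => ?_)
    · simp only [hlim, if_pos hi]
    · simp only [hlim, if_neg (mem_sdiff.1 hi).2, if_pos (mem_sdiff.1 hi).1]
  rcases T.eq_empty_or_nonempty with hT0 | hTne
  · refine ne_of_lt (hdef 0 (fun i => if i ∈ Cc then e i 0 else 0) (fun i => by split_ifs <;> omega)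
      ⟨i₀, by have := he i₀ 0; simp [hi₀]; omega⟩) ?_
    rw [← heq, hsplit, hT0, prod_empty, mul_one, abund,
      ← prod_subset (subset_univ Cc) (fun i _ hi => by simp [hi, factor])]
    exact prod_congr rfl fun i hi => by simp [hi]
  · set M := ∏ i ∈ Cc, p i 0 ^ e i 0 with hM
    have hM0 : M ≠ 0 := prod_ne_zero_iff.2 fun i _ => pow_ne_zero _ (hp i 0).1.ne_zero
    have hfac : (σ 1 M : ℝ) / M = ∏ i ∈ Cc, factor (p i 0) (e i 0) := by
      rw [div_eq_iff (Nat.cast_ne_zero.2 hM0), hM,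
        sigma_prod_eq Cc (fun i => (hp i 0).1) (hinj 0), mul_comm]
    refine limit_ne_two (T := T.image fun i => p i 0) (hTne.image _)
      (fun q hq => ?_) hM0 (fun q hq hqM => ?_) ?_
    · obtain ⟨i, -, rfl⟩ := mem_image.1 hq
      exact hp i 0
    · obtain ⟨i, hi, rfl⟩ := mem_image.1 hq
      obtain ⟨i', hi', hd⟩ := (Prime.dvd_finsetProd_iff (hp i 0).1.prime _).1 hqM
      have e' := (Nat.prime_dvd_prime_iff_eq (hp i 0).1 (hp i' 0).1).1
        ((hp i 0).1.dvd_of_dvd_pow hd)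
      exact (mem_sdiff.1 hi).2 ((hinj 0 e') ▸ hi')
    · rw [hfac, prod_image fun a _ b _ h => hinj 0 h, ← hsplit, heq]

/-- **Dickson's theorem.** -/
theorem finite_primitive (k : ℕ) :
    {n : ℕ | Odd n ∧ Primitive n ∧ n.primeFactors.card ≤ k}.Finite := by
  suffices h : ∀ k, {n : ℕ | Odd n ∧ Primitive n ∧ n.primeFactors.card = k}.Finite from
    ((Set.finite_Iic k).biUnion fun i _ => h i).subset fun n hn =>
      Set.mem_biUnion (x := n.primeFactors.card) hn.2.2 ⟨hn.1, hn.2.1, rfl⟩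
  intro k
  by_contra hinf
  set N : ℕ → ℕ := fun j => (Set.Infinite.natEmbedding _ hinf j : ℕ) with hN
  have hNinj : Function.Injective N := fun a b h =>
    (Set.Infinite.natEmbedding _ hinf).injective (Subtype.ext h)
  have hmem : ∀ j, Odd (N j) ∧ Primitive (N j) ∧ (N j).primeFactors.card = k :=
    fun j => (Set.Infinite.natEmbedding _ hinf j).2
  set P : Fin k → ℕ → ℕ := fun i j => (N j).primeFactors.orderEmbOfFin (hmem j).2.2 i with hP
  set E : Fin k → ℕ → ℕ := fun i j => (N j).factorization (P i j) with hE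
  have hPmem : ∀ i j, P i j ∈ (N j).primeFactors :=
    fun i j => orderEmbOfFin_mem _ (hmem j).2.2 i
  have hprod : ∀ j, ∏ i, P i j ^ E i j = N j := fun j => by
    conv_rhs => rw [← Nat.prod_factorization_pow_eq_self (hmem j).1.pos.ne']
    rw [Finsupp.prod, Nat.support_factorization,
      ← image_orderEmbOfFin_univ (N j).primeFactors (hmem j).2.2,
      prod_image fun a _ b _ h => ((N j).primeFactors.orderEmbOfFin _).injective h]
  obtain ⟨φ, hφ, hP'⟩ := exists_subseq_finset univ P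
  obtain ⟨ψ, hψ, hE'⟩ := exists_subseq_finset univ fun i j => E i (φ j)
  refine no_sequence (fun i j => P i (φ (ψ j))) (fun i j => E i (φ (ψ j)))
    (fun i j => ⟨Nat.prime_of_mem_primeFactors (hPmem _ _), fun h2 => ?_⟩)
    (fun j a b h => ((N (φ (ψ j))).primeFactors.orderEmbOfFin _).injective h)
    (fun i j => ?_) (fun i => ?_) (fun i => hE' i (mem_univ i)) (fun j => ?_) fun c => ?_
  · have h3 := Nat.dvd_of_mem_primeFactors (hPmem i (φ (ψ j)))
    rw [h2] at h3
    exact Nat.not_even_iff_odd.2 (hmem _).1 (even_iff_two_dvd.2 h3)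
  · exact (Nat.prime_of_mem_primeFactors (hPmem _ _)).factorization_pos_of_dvd
      (hmem _).1.pos.ne' (Nat.dvd_of_mem_primeFactors (hPmem _ _))
  · exact (hP' i (mem_univ i)).imp (fun ⟨c, hc⟩ => ⟨c, fun j => hc (ψ j)⟩)
      fun ht => ht.comp hψ.tendsto_atTop
  · rw [hprod]
    exact (hmem _).2.1
  · simp only [hprod]
    by_contra! hc
    exact Nat.zero_ne_one (hψ.injective (hφ.injective (hNinj ((hc 0).trans (hc 1).symm))))

/-- A perfect number is primitive. -/
theorem primitive_of_perfect {n : ℕ} (h : Nat.Perfect n) : Primitive n := by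
  obtain ⟨hσ, hn⟩ : σ 1 n = 2 * n ∧ 0 < n :=
    ⟨by rw [sigma_one_apply]; exact (Nat.perfect_iff_sum_divisors_eq_two_mul h.2).1 h, h.2⟩
  refine ⟨hσ.ge, fun d hd hne => ?_⟩
  have := sigma_mul_lt hn.ne' hd hne
  rw [hσ] at this
  exact Nat.lt_of_mul_lt_mul_right (a := n) (by linarith)

/-- **Finitely many odd perfect numbers with boundedly many prime factors.** -/
theorem finite_odd_perfect (k : ℕ) :
    {n : ℕ | Odd n ∧ Nat.Perfect n ∧ n.primeFactors.card ≤ k}.Finite :=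
  (finite_primitive k).subset fun _ hn => ⟨hn.1, primitive_of_perfect hn.2.1, hn.2.2⟩

end FA.OddPerfect

end
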