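import Fermat.Agent.OddPerfect.Dickson

/-!
# Euler's form of an odd perfect number

Modulo four exactly one factor of the sum of divisors is even.
-/

set_option autoImplicit false

noncomputable section

open Finset ArithmeticFunction
open scoped ArithmeticFunction.sigma

namespace FA.OddPerfect

theorem sigma_pow_odd_iff {q : ℕ} (hq : q.Prime) (hq2 : q ≠ 2) (e : ℕ) :
    Odd (σ 1 (q ^ e)) ↔ Even e := by
  rw [sigma_one_apply_prime_pow hq]
  induction e with
  | zero => simp
  | succ e ih =>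
    rw [sum_range_succ, Nat.odd_add, ih, Nat.even_pow, Nat.even_add_one]
    simp [(hq.odd_of_ne_two hq2).not_two_dvd_nat, even_iff_two_dvd]

theorem sigma_pow_mod_four {q : ℕ} (hq : q.Prime) (hq2 : q ≠ 2) {e : ℕ} (he : Odd e)
    (h4 : ¬ 4 ∣ σ 1 (q ^ e)) : q % 4 = 1 ∧ e % 4 = 1 := by
  have hmod : q % 4 = 1 ∨ q % 4 = 3 := by
    have := Nat.odd_iff.1 (hq.odd_of_ne_two hq2)
    omega
  obtain ⟨t, rfl⟩ := he
  have key : ((σ 1 (q ^ (2 * t + 1)) : ℕ) : ZMod 4) =
      ∑ l ∈ range (2 * t + 2), (q : ZMod 4) ^ l := by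
    rw [sigma_one_apply_prime_pow hq]
    push_cast
    rfl
  rcases hmod with h | h
  · refine ⟨h, ?_⟩
    have hqz : (q : ZMod 4) = 1 := by
      rw [← ZMod.natCast_mod, h, Nat.cast_one]
    have hsum : ((σ 1 (q ^ (2 * t + 1)) : ℕ) : ZMod 4) = ((2 * t + 2 : ℕ) : ZMod 4) := by
      rw [key, hqz]
      simp
    have := (ZMod.natCast_eq_natCast_iff' _ _ _).1 hsum
    omega
  · refine absurd ((ZMod.natCast_eq_zero_iff _ _).1 ?_) h4
    have hqz : (q : ZMod 4) = -1 := by
      rw [← ZMod.natCast_mod, h]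
      rfl
    rw [key, hqz, neg_one_geom_sum, if_pos (by simp [Nat.even_add, parity_simps])]

/-- **Euler's theorem on odd perfect numbers.** -/
theorem euler_form {n : ℕ} (hodd : Odd n) (h : Nat.Perfect n) :
    ∃ p a m : ℕ, p.Prime ∧ p % 4 = 1 ∧ a % 4 = 1 ∧ ¬ p ∣ m ∧ n = p ^ a * m ^ 2 := by
  have hn : n ≠ 0 := h.2.ne'
  have hσ : σ 1 n = 2 * n := by
    rw [sigma_one_apply]; exact (Nat.perfect_iff_sum_divisors_eq_two_mul h.2).1 h
  set a := n.factorization with ha
  have hn' : n = ∏ q ∈ n.primeFactors, q ^ a q := by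
    conv_lhs => rw [← Nat.prod_factorization_pow_eq_self hn]
    rw [Finsupp.prod, Nat.support_factorization]
  have hprod : σ 1 n = ∏ q ∈ n.primeFactors, σ 1 (q ^ a q) := by
    conv_lhs => rw [hn']
    exact IsMultiplicative.map_prod _ isMultiplicative_sigma _ fun q hq r hr hqr =>
      ((Nat.coprime_primes (Nat.prime_of_mem_primeFactors hq)
        (Nat.prime_of_mem_primeFactors hr)).2 hqr).pow _ _
  have h2 : ∀ q ∈ n.primeFactors, q ≠ 2 := fun q hq h2 =>
    Nat.not_even_iff_odd.2 hodd (even_iff_two_dvd.2 (h2 ▸ Nat.dvd_of_mem_primeFactors hq))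
  obtain ⟨p, hp, hpe⟩ : ∃ p ∈ n.primeFactors, Odd (a p) := by
    by_contra! hall
    have : Odd (σ 1 n) := by
      rw [hprod]
      refine Finset.prod_induction _ _ (fun _ _ => Odd.mul) odd_one fun q hq => ?_
      exact (sigma_pow_odd_iff (Nat.prime_of_mem_primeFactors hq) (h2 q hq) _).2
        (Nat.not_odd_iff_even.1 (hall q hq))
    rw [hσ, Nat.odd_mul] at this
    exact absurd this.1 (by decide)
  have hpp := Nat.prime_of_mem_primeFactors hp
  have heven : 2 ∣ σ 1 (p ^ a p) := even_iff_two_dvd.1 (Nat.not_odd_iff_even.1 fun ho =>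
    Nat.not_even_iff_odd.2 hpe ((sigma_pow_odd_iff hpp (h2 p hp) _).1 ho))
  have h4 : ¬ 4 ∣ σ 1 n := fun h4 => by
    rw [hσ] at h4
    have := Nat.odd_iff.1 hodd
    omega
  rw [hprod, ← mul_prod_erase _ _ hp] at h4
  have hrest : ∀ q ∈ n.primeFactors.erase p, Even (a q) := fun q hq => by
    by_contra he
    obtain ⟨-, hq'⟩ := mem_erase.1 hq
    refine h4 (Nat.mul_dvd_mul heven (dvd_trans (even_iff_two_dvd.1 (Nat.not_odd_iff_even.1
      fun ho => he ((sigma_pow_odd_iff (Nat.prime_of_mem_primeFactors hq') (h2 q hq') _).1 ho)))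
      (dvd_prod_of_mem (fun x => σ 1 (x ^ a x)) hq)))
  obtain ⟨hp1, hp4⟩ := sigma_pow_mod_four hpp (h2 p hp) hpe fun hd => h4 (dvd_mul_of_dvd_left hd _)
  refine ⟨p, a p, ∏ q ∈ n.primeFactors.erase p, q ^ (a q / 2), hpp, hp1, hp4, fun hd => ?_, ?_⟩
  · obtain ⟨q, hq, hdq⟩ := (Prime.dvd_finsetProd_iff hpp.prime _).1 hd
    obtain ⟨hne, hq'⟩ := mem_erase.1 hq
    exact hne ((Nat.prime_dvd_prime_iff_eq hpp (Nat.prime_of_mem_primeFactors hq')).1
      (hpp.dvd_of_dvd_pow hdq)).symm
  · rw [← prod_pow]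
    conv_lhs => rw [hn', ← mul_prod_erase _ _ hp]
    refine congrArg _ (prod_congr rfl fun q hq => ?_)
    rw [← pow_mul, Nat.div_mul_cancel (hrest q hq).two_dvd]

/-- **An odd non-deficient number has at least three prime factors.** -/
theorem three_le_card {n : ℕ} (hodd : Odd n) (h : 2 * n ≤ σ 1 n) :
    3 ≤ n.primeFactors.card := by
  by_contra! hcard
  have hn : n ≠ 0 := hodd.pos.ne'
  obtain ⟨k, hk⟩ : ∃ k, n.primeFactors.card = k := ⟨_, rfl⟩
  rw [hk] at hcard
  set P := n.primeFactors.orderEmbOfFin hk with hP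
  set E : Fin k → ℕ := fun i => n.factorization (P i) with hE
  have hmem : ∀ i, P i ∈ n.primeFactors := fun i => orderEmbOfFin_mem _ hk i
  have hprime : ∀ i, (P i).Prime := fun i => Nat.prime_of_mem_primeFactors (hmem i)
  have hprod : ∏ i, P i ^ E i = n := by
    conv_rhs => rw [← Nat.prod_factorization_pow_eq_self hn]
    rw [Finsupp.prod, Nat.support_factorization, ← image_orderEmbOfFin_univ n.primeFactors hk,
      prod_image fun a _ b _ h => P.injective h]
  have h' : (2 : ℝ) * (n : ℝ) ≤ (σ 1 n : ℝ) := by exact_mod_cast h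
  rw [← hprod, sigma_prod_eq univ hprime P.injective, mul_comm] at h'
  have hge : (2 : ℝ) ≤ ∏ i, factor (P i) (E i) :=
    le_of_mul_le_mul_left h' (Nat.cast_pos.2 (prod_pos fun i _ => pow_pos (hprime i).pos _))
  have hthree : ∀ i, 3 ≤ P i := fun i => by
    have h2 := (hprime i).two_le
    rcases h2.eq_or_lt with e | e
    · have hd := Nat.dvd_of_mem_primeFactors (hmem i)
      rw [← e] at hd
      exact absurd (even_iff_two_dvd.2 hd) (Nat.not_even_iff_odd.2 hodd)
    · exact e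
  have hbound : ∀ {c : ℕ} i, 2 ≤ c → c ≤ P i → factor (P i) (E i) < (c : ℝ) / ((c : ℝ) - 1) := by
    intro c i hc hci
    refine (factor_lt (hprime i).two_le _).trans_le ?_
    have h1 : (2 : ℝ) ≤ c := by exact_mod_cast hc
    have h2 : (c : ℝ) ≤ P i := by exact_mod_cast hci
    rw [div_le_div_iff₀ (by linarith) (by linarith)]
    linarith
  rcases (by omega : k = 0 ∨ k = 1 ∨ k = 2) with e | e | e
  · subst e
    simp at hge
  · obtain ⟨i, hi⟩ : ∃ i : Fin k, ∀ j, j = i := ⟨⟨0, by omega⟩, fun j => Fin.ext (by omega)⟩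
    rw [prod_eq_single i (fun j _ hj => absurd (hi j) hj) (by simp)] at hge
    have := hbound i le_rfl (hprime i).two_le
    norm_num at this
    linarith
  · set i₀ : Fin k := ⟨0, by omega⟩
    set i₁ : Fin k := ⟨1, by omega⟩
    have hne : i₀ ≠ i₁ := fun h => by simpa [i₀, i₁] using congrArg Fin.val h
    have huniv : (univ : Finset (Fin k)) = {i₀, i₁} := by
      ext j
      simp only [mem_univ, mem_insert, mem_singleton, true_iff, Fin.ext_iff, i₀, i₁]
      omega
    rw [huniv, prod_pair hne] at hge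
    have hlt : P i₀ < P i₁ := P.strictMono (show (0 : ℕ) < 1 from one_pos)
    have h5 : 5 ≤ P i₁ := by
      by_contra! hlt5
      have := hthree i₀
      exact absurd (show P i₁ = 4 by omega ▸ hprime i₁) (by norm_num)
    have b0 := hbound i₀ (by norm_num) (hthree i₀)
    have b1 := hbound i₁ (by norm_num) h5
    norm_num at b0 b1
    nlinarith [one_le_factor (P i₀) (E i₀), one_le_factor (P i₁) (E i₁)]

end FA.OddPerfect

end
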